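import Fermat.Agent.RT.Two.Core.Taylor

/-!
# The commutative algebra behind minimal lifting

An element `G` of `B` mapping `M` into `𝔞 M` cannot have a large value at a point `θE` when `B`
is, modulo each system of relations `y i = (0 or x i)`, generated near a second point `θ₀` by `r`
elements and `M` has coefficient functionals of arbitrarily high precision.
-/

set_option autoImplicit false

noncomputable section

namespace Fermat.Agent.RT.Two.Core

open Finset

variable {O : Type*} [CommRing O] {B : Type*} [CommRing B] [Algebra O B] {r : ℕ}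

theorem pow_le_span_mono (ℓ : Fin r → B) (J : Ideal B)
    (hgen : ∀ b : B, ∃ c : O, b - algebraMap O B c ∈ Ideal.span (Set.range ℓ) ⊔ J) (k : ℕ) :
    (Ideal.span (Set.range ℓ) ^ k).restrictScalars O ≤
      Submodule.span O (Set.range fun α : Expo r k => mono ℓ α.1) ⊔
        (Ideal.span (Set.range ℓ) ^ (k + 1) ⊔ J).restrictScalars O := by
  set I := Ideal.span (Set.range ℓ)
  induction k with
  | zero =>
    intro b _
    obtain ⟨c, hc⟩ := hgen b
    rw [← add_sub_cancel (algebraMap O B c) b]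
    refine Submodule.add_mem_sup ?_ (by rwa [zero_add, pow_one])
    rw [Algebra.algebraMap_eq_smul_one]
    refine Submodule.smul_mem _ _ (Submodule.subset_span ⟨(⟨0, by simp [deg]⟩ : Expo r 0), ?_⟩)
    simp [mono_zero]
  | succ k ih =>
    intro z hz
    rw [Submodule.restrictScalars_mem, pow_succ] at hz
    refine Submodule.mul_induction_on hz (fun a ha b hb => ?_)
      fun a b ha hb => Submodule.add_mem _ ha hb
    obtain ⟨e, rfl⟩ := (Submodule.mem_span_range_iff_exists_fun B).1 hb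
    rw [Finset.mul_sum]
    refine Submodule.sum_mem _ fun j _ => ?_
    rw [smul_eq_mul, ← mul_assoc]
    obtain ⟨u, hu, w, hw, huw⟩ := Submodule.mem_sup.1 (ih (Ideal.mul_mem_right (e j) _ ha))
    rw [← huw, add_mul]
    refine Submodule.add_mem _ (Submodule.mem_sup_left ?_) (Submodule.mem_sup_right ?_)
    · clear huw
      induction hu using Submodule.span_induction with
      | mem z hz =>
        obtain ⟨α, rfl⟩ := hz
        exact Submodule.subset_span
          ⟨(⟨α.1 + Pi.single j 1, by rw [deg_add, deg_single, α.2]⟩ : Expo r (k + 1)),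
            by show mono ℓ _ = _; rw [mono_add, mono_single]⟩
      | zero => rw [zero_mul]; exact zero_mem _
      | add a b _ _ ha hb => rw [add_mul]; exact add_mem ha hb
      | smul a b _ hb => rw [smul_mul_assoc]; exact Submodule.smul_mem _ a hb
    · obtain ⟨p, hp, q, hq, hpq⟩ := Submodule.mem_sup.1 (show w ∈ I ^ (k + 1) ⊔ J from hw)
      show w * ℓ j ∈ I ^ (k + 1 + 1) ⊔ J
      rw [← hpq, add_mul, pow_succ]
      exact Submodule.add_mem _
        (Ideal.mem_sup_left (Ideal.mul_mem_mul hp (Ideal.subset_span ⟨j, rfl⟩)))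
        (Ideal.mem_sup_right (Ideal.mul_mem_right _ _ hq))

/-- The exponents of degree at most `K`. -/
def expoLE (r K : ℕ) : Finset (Fin r → ℕ) :=
  (Finset.range (K + 1)).biUnion fun k => Finset.piAntidiag Finset.univ k

theorem mem_expoLE {K : ℕ} {α : Fin r → ℕ} : α ∈ expoLE r K ↔ deg α ≤ K := by
  simp [expoLE, Finset.mem_piAntidiag, deg]

theorem exists_expansion (ℓ : Fin r → B) (J : Ideal B)
    (hgen : ∀ b : B, ∃ c : O, b - algebraMap O B c ∈ Ideal.span (Set.range ℓ) ⊔ J) (b : B) (K : ℕ) :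
    ∃ c : (Fin r → ℕ) → O, b - ∑ α ∈ expoLE r K, algebraMap O B (c α) * mono ℓ α ∈
      Ideal.span (Set.range ℓ) ^ (K + 1) ⊔ J := by
  classical
  set I := Ideal.span (Set.range ℓ)
  suffices h : ∀ K, b ∈ Submodule.span O (mono ℓ '' (expoLE r K : Set (Fin r → ℕ))) ⊔
      (I ^ (K + 1) ⊔ J).restrictScalars O by
    obtain ⟨u, hu, w, hw, huw⟩ := Submodule.mem_sup.1 (h K)
    obtain ⟨c, hc⟩ := (Submodule.mem_span_image_finset_iff_exists_fun O).1 hu
    refine ⟨fun α => if hα : α ∈ expoLE r K then c ⟨α, hα⟩ else 0, ?_⟩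
    have e : ∑ α ∈ expoLE r K, algebraMap O B
        (if hα : α ∈ expoLE r K then c ⟨α, hα⟩ else 0) * mono ℓ α = u := by
      rw [← hc, ← Finset.sum_coe_sort (expoLE r K)]
      exact Finset.sum_congr rfl fun α _ => by rw [dif_pos α.2, Algebra.smul_def]
    rw [e, ← huw, add_sub_cancel_left]
    exact hw
  intro K
  induction K with
  | zero =>
    have h0 := pow_le_span_mono ℓ J hgen 0
      (show b ∈ (I ^ 0).restrictScalars O by simp)
    refine SetLike.le_def.1 (sup_le_sup_right ?_ _) h0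
    refine Submodule.span_mono ?_
    rintro _ ⟨α, rfl⟩
    exact ⟨α.1, mem_expoLE.2 α.2.le, rfl⟩
  | succ K ih =>
    obtain ⟨u, hu, w, hw, huw⟩ := Submodule.mem_sup.1 ih
    obtain ⟨p, hp, q, hq, hpq⟩ := Submodule.mem_sup.1 (show w ∈ I ^ (K + 1) ⊔ J from hw)
    obtain ⟨u', hu', w', hw', hu'w'⟩ := Submodule.mem_sup.1
      (pow_le_span_mono ℓ J hgen (K + 1) hp)
    rw [← huw, ← hpq, ← hu'w', show u + (u' + w' + q) = (u + u') + (w' + q) by ring]
    refine Submodule.add_mem_sup (Submodule.add_mem _ ?_ ?_)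
      (show w' + q ∈ I ^ (K + 1 + 1) ⊔ J from Submodule.add_mem _ hw' (Ideal.mem_sup_right hq))
    · refine Submodule.span_mono (Set.image_mono fun α hα => ?_) hu
      exact mem_expoLE.2 ((mem_expoLE.1 hα).trans (Nat.le_succ K))
    · refine Submodule.span_mono ?_ hu'
      rintro _ ⟨α, rfl⟩
      exact ⟨α.1, mem_expoLE.2 α.2.le, rfl⟩

variable {Ω : Type*} [CommRing Ω] [Algebra O Ω] {M : Type*} [AddCommGroup M] [Module B M]
  [Module O M] [IsScalarTower O B M]

/-- The exponent needed up to degree `K`. -/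
def expBound (r K : ℕ) : ℕ := ∑ i ∈ Finset.range (K + 1), (2 * i + 1) * Fintype.card (Expo r i)

/-- An element of the span of finitely many pairwise comparable elements is divisible by one of
them; among those which divide all, one is least. -/
theorem exists_pivot {α Λ : Type*} [CommRing Λ] [LinearOrder α] (hdiv : ∀ a b : Λ, a ∣ b ∨ b ∣ a)
    (S : Finset α) (hS : S.Nonempty) (f : α → Λ) :
    ∃ a₀ ∈ S, (∀ a ∈ S, f a₀ ∣ f a) ∧ ∀ a ∈ S, a < a₀ → ¬ f a ∣ f a₀ := by
  classical
  have hT : (S.filter fun a => ∀ b ∈ S, f a ∣ f b).Nonempty := by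
    induction S using Finset.induction with
    | empty => simp at hS
    | insert a T haT ih =>
      rcases T.eq_empty_or_nonempty with rfl | hT
      · exact ⟨a, by simp⟩
      obtain ⟨m, hm⟩ := ih hT
      rw [Finset.mem_filter] at hm
      rcases hdiv (f a) (f m) with h | h
      · exact ⟨a, Finset.mem_filter.2 ⟨Finset.mem_insert_self _ _, fun b hb => by
          rcases Finset.mem_insert.1 hb with rfl | hb
          · exact dvd_rfl
          · exact h.trans (hm.2 b hb)⟩⟩
      · exact ⟨m, Finset.mem_filter.2 ⟨Finset.mem_insert_of_mem hm.1, fun b hb => by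
          rcases Finset.mem_insert.1 hb with rfl | hb
          · exact h
          · exact hm.2 b hb⟩⟩
  set T := S.filter fun a => ∀ b ∈ S, f a ∣ f b
  obtain ⟨h1, h2⟩ := Finset.mem_filter.1 (T.min'_mem hT)
  refine ⟨_, h1, h2, fun a ha hlt hdvd => not_le.2 hlt (T.min'_le a (Finset.mem_filter.2
    ⟨ha, fun b hb => hdvd.trans (h2 b hb)⟩))⟩

variable (x ℓ y v : Fin r → B) (G G₀ : B) (θ₀ θE : B →ₐ[O] O)
  (coef : (Fin r → ℕ) → M →ₗ[O] Ω) (w : M)

/-- The system of relations attached to a choice. -/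
def relations (o : Fin r → Bool) : Ideal B :=
  Ideal.span (Set.range fun i => y i - if o i then x i else 0)

theorem map_relations {S : Type*} [CommRing S] (f : B →+* S) (hy : ∀ i, f (y i) = 0)
    (hx : ∀ i, f (x i) = 0) (o : Fin r → Bool) : relations x y o ≤ RingHom.ker f := by
  rw [relations, Ideal.span_le]
  rintro _ ⟨i, rfl⟩
  rw [SetLike.mem_coe, RingHom.mem_ker, map_sub, hy]
  split_ifs <;> simp [hx]

/-- The hypotheses at one level. -/
structure Hyp (μ : ℕ) (π : O) (D : ℕ) : Prop where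
  hcoef : ∀ (a : Fin r → ℕ) (j : Fin r) (m : M), deg a ≤ D →
    coef a (x j • m) = if a j = 0 then 0 else coef (a - Pi.single j 1) m
  hP : ∀ j, G₀ * ℓ j ∈ raiser (Ideal.span (Set.range x)) M
  hQ : ∀ i, G₀ * y i ∈ raiser (Ideal.span (Set.range x)) M
  hG₀ : G₀ * (G₀ - algebraMap O B (θ₀ G₀)) ∈ raiser (Ideal.span (Set.range x)) M
  hgen : ∀ o : Fin r → Bool, ∀ b : B, ∃ c : O,
    b - algebraMap O B c ∈ Ideal.span (Set.range ℓ) ⊔ relations x y o
  hvy : ∀ i (m : M), (v i * (y i * (y i - x i))) • m = 0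
  hw : ∀ b : B, (b - algebraMap O B (θ₀ b)) • w ∈ Ideal.span (Set.range x) • (⊤ : Submodule B M)
  hw0 : IsUnit (coef 0 w)
  hG : ∀ m : M, G • m ∈ Ideal.span (Set.range x) • (⊤ : Submodule B M)
  hfin : Module.Finite B M
  hμ : (⊤ : Submodule B M).spanFinrank ≤ μ
  hθ₀ : ∀ i, θ₀ (ℓ i) = 0 ∧ θ₀ (y i) = 0 ∧ θ₀ (x i) = 0
  hθE : ∀ i, π ∣ θE (ℓ i) ∧ θE (y i) = 0 ∧ θE (x i) = 0

variable {x ℓ y v G G₀ θ₀ θE coef w}

omit [IsScalarTower O B M] in
/-- An element killing `M`, with value a power of that of `G`. -/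
theorem exists_killer {μ D : ℕ} {π : O} (H : Hyp x ℓ y v G G₀ θ₀ θE coef w μ π D) :
    ∃ h : B, (∀ m : M, h • m = 0) ∧ θE h = θE G ^ μ := by
  have := H.hfin
  set I := Ideal.span (Set.range x)
  obtain ⟨p, hp, hdeg, hco, hpf⟩ :=
    LinearMap.exists_monic_and_natDegree_eq_and_coeff_mem_pow_and_aeval_eq_zero B
      (Algebra.lsmul B B M G) I (by rintro _ ⟨m, rfl⟩; exact H.hG m)
  rw [Polynomial.aeval_algHom_apply] at hpf
  refine ⟨G ^ (μ - p.natDegree) * Polynomial.aeval G p, fun m => ?_, ?_⟩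
  · rw [mul_smul, show Polynomial.aeval G p • m = Algebra.lsmul B B M (Polynomial.aeval G p) m
      from rfl, hpf, LinearMap.zero_apply, smul_zero]
  · have hI : I ≤ RingHom.ker θE := Ideal.span_le.2 (by rintro _ ⟨i, rfl⟩; exact (H.hθE i).2.2)
    have h1 : θE (Polynomial.aeval G p) = θE G ^ p.natDegree := by
      rw [Polynomial.aeval_eq_sum_range, Finset.sum_range_succ, map_add, hp.coeff_natDegree,
        one_smul, map_pow, map_sum, Finset.sum_eq_zero (fun i hi => ?_), zero_add]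
      rw [Finset.mem_range] at hi
      rw [smul_eq_mul, map_mul,
        RingHom.mem_ker.1 (hI (Ideal.pow_le_self (by omega) (hco i))), zero_mul]
    rw [map_mul, map_pow, h1, ← pow_add, Nat.sub_add_cancel (hdeg ▸ H.hμ)]

/-- **The bound.** A power of `θE G`, up to a multiple of `π ^ (K + 1)`, is killed by powers of the
weights at the second point. -/
theorem dvd_bound [IsLocalRing Ω] (hdiv : ∀ a b : Ω, a ∣ b ∨ b ∣ a) {μ D : ℕ} {π : O}
    (H : Hyp x ℓ y v G G₀ θ₀ θE coef w μ π D) (K : ℕ) (hDK : r + K ≤ D) :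
    ∃ z : O, π ^ (K + 1) ∣ z ∧ algebraMap O Ω ((θE G ^ μ - z) *
      (θ₀ G₀ * (θ₀ G₀ ^ (r + 1) * ∏ i, θ₀ (v i))) ^ expBound r K) = 0 := by
  classical
  obtain ⟨h, hh, hθh⟩ := exists_killer H
  set I := Ideal.span (Set.range x) with hI
  set R := raiser I M with hR
  have hxR : ∀ i, x i ∈ R := fun i m =>
    Submodule.smul_mem_smul (Ideal.subset_span ⟨i, rfl⟩) Submodule.mem_top
  -- the factors
  let f : Bool → Fin r → B := fun c i => v i * (G₀ * (y i - if c then 0 else x i))
  let L : (Fin r → Bool) → M := fun o => (∏ i, f (o i) i) • w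
  have hf : ∀ c i, f c i ∈ R := by
    intro c i
    refine Ideal.mul_mem_left _ _ ?_
    cases c
    · simpa [mul_sub] using Submodule.sub_mem _ (H.hQ i) (Ideal.mul_mem_left _ _ (hxR i))
    · simpa using H.hQ i
  have hLmem : ∀ o, L o ∈ I ^ r • (⊤ : Submodule B M) := by
    intro o
    refine raiser_pow_le I r (Submodule.smul_mem_smul ?_ Submodule.mem_top)
    have := Ideal.prod_mem_prod (s := Finset.univ) (I := fun _ : Fin r => R)
      (x := fun i => f (o i) i) fun i _ => hf (o i) i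
    simpa using this
  have hLJ : ∀ o, ∀ b ∈ relations x y o, b • L o = 0 := by
    intro o b hb
    induction hb using Submodule.span_induction with
    | mem z hz =>
      obtain ⟨i, rfl⟩ := hz
      show (y i - if o i then x i else 0) • ((∏ j, f (o j) j) • w) = 0
      rw [← Finset.mul_prod_erase _ _ (Finset.mem_univ i), ← mul_smul, ← mul_assoc, mul_smul]
      have e : (y i - if o i then x i else 0) * f (o i) i = G₀ * (v i * (y i * (y i - x i))) := by
        cases o i <;> simp [f] <;> ring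
      rw [e, mul_smul, H.hvy, smul_zero]
    | zero => exact zero_smul _ _
    | add a b _ _ ha hb => rw [add_smul, ha, hb, add_zero]
    | smul a b _ hb => rw [smul_eq_mul, mul_smul, hb, smul_zero]
  -- the pivot
  let S : Finset ((Fin r → Bool) × Lex (Fin r → ℕ)) :=
    Finset.univ ×ˢ (Finset.piAntidiag Finset.univ r).image toLex
  have hmemS : ∀ o a, (o, a) ∈ S ↔ deg (ofLex a) = r := by
    intro o a
    simp only [S, Finset.mem_product, Finset.mem_univ, true_and, Finset.mem_image,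
      Finset.mem_piAntidiag]
    exact ⟨by rintro ⟨b, hb, rfl⟩; exact hb.1, fun h => ⟨ofLex a, ⟨h, fun i _ => trivial⟩, rfl⟩⟩
  have hSne : S.Nonempty :=
    ⟨(fun _ => true, toLex 1), (hmemS _ _).2 (by show ∑ i, (1 : Fin r → ℕ) i = r; simp)⟩
  let : LinearOrder ((Fin r → Bool) × Lex (Fin r → ℕ)) :=
    LinearOrder.lift' (fun p => toLex (toLex p.1, p.2)) fun a b hab => by
      have := congrArg ofLex hab
      simp only [ofLex_toLex, Prod.mk.injEq, toLex_inj] at this
      exact Prod.ext this.1 this.2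
  let g : (Fin r → Bool) × Lex (Fin r → ℕ) → Ω := fun p => coef (ofLex p.2) (G₀ • L p.1)
  obtain ⟨⟨o, a₀⟩, hp₀, hdvd, hlt⟩ := exists_pivot hdiv S hSne g
  have ha₀ : deg (ofLex a₀) = r := (hmemS _ _).1 hp₀
  have hγ : ∀ a, deg a = r → ∃ u : Ω,
      coef a (G₀ • L o) = coef (ofLex a₀) (G₀ • L o) * u ∧
        (toLex a < toLex (ofLex a₀) → ¬ IsUnit u) := by
    intro a ha
    obtain ⟨u, hu⟩ := hdvd (o, toLex a) ((hmemS _ _).2 ha)
    refine ⟨u, hu, fun hlt' hunit => ?_⟩
    refine hlt (o, toLex a) ((hmemS _ _).2 ha) ?_ ?_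
    · show toLex (toLex o, toLex a) < toLex (toLex o, a₀)
      exact Prod.Lex.toLex_lt_toLex.2 (Or.inr ⟨rfl, by simpa using hlt'⟩)
    · obtain ⟨u', rfl⟩ := hunit
      exact ⟨(u'⁻¹ : Ωˣ), by
        show g (o, a₀) = g (o, toLex a) * _
        rw [hu, mul_assoc, Units.mul_inv, mul_one]⟩
  set γ := coef (ofLex a₀) (G₀ • L o) with hγdef
  -- the expansion
  obtain ⟨c, hc⟩ := exists_expansion (O := O) ℓ (relations x y o) (H.hgen o) h K
  have hker₀ : Ideal.span (Set.range ℓ) ⊔ relations x y o ≤ RingHom.ker (θ₀ : B →+* O) :=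
    sup_le (Ideal.span_le.2 (by rintro _ ⟨i, rfl⟩; exact (H.hθ₀ i).1))
      (map_relations x y _ (fun i => (H.hθ₀ i).2.1) (fun i => (H.hθ₀ i).2.2) o)
  have hx : ∀ i, x i ∈ Ideal.span (Set.range ℓ) ⊔ relations x y o := by
    intro i
    obtain ⟨d, hd⟩ := H.hgen o (x i)
    have := RingHom.mem_ker.1 (hker₀ hd)
    simp only [RingHom.coe_coe, map_sub, AlgHom.commutes, (H.hθ₀ i).2.2, zero_sub,
      neg_eq_zero] at this
    simpa [show d = 0 from this] using hd
  have hcz := coeff_zero x ℓ G₀ (relations x y o) (θ₀ G₀) coef H.hcoef H.hP H.hG₀ (H.hgen o) hx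
    (hLmem o) (hLJ o) ha₀ hγ hDK (hh _) c (expoLE r K) (fun α h => mem_expoLE.2 h) hc
  set z := θE (h - ∑ α ∈ expoLE r K, algebraMap O B (c α) * mono ℓ α) with hz
  refine ⟨z, ?_, ?_⟩
  · obtain ⟨p, hp, q, hq, hpq⟩ := Submodule.mem_sup.1 hc
    rw [hz, ← hpq, map_add, (RingHom.mem_ker.1
      (map_relations x y (θE : B →+* O) (fun i => (H.hθE i).2.1) (fun i => (H.hθE i).2.2) o hq) :
        θE q = 0),
      add_zero, ← Ideal.mem_span_singleton, ← Ideal.span_singleton_pow]
    have hle : (Ideal.span (Set.range ℓ)).map θE ≤ Ideal.span {π} := by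
      rw [Ideal.map_span, Ideal.span_le]
      rintro _ ⟨_, ⟨i, rfl⟩, rfl⟩
      exact Ideal.mem_span_singleton.2 (H.hθE i).1
    exact Ideal.pow_right_mono hle _ (Ideal.map_pow θE _ _ ▸ Ideal.mem_map_of_mem θE hp)
  -- the pivot divides the leading coefficient
  have hsum : ∏ i, (v i * (G₀ * x i)) = ∏ i, (f true i - f false i) :=
    Finset.prod_congr rfl fun i _ => by simp [f]; ring
  have hlead : coef 1 ((G₀ * ∏ i, (v i * (G₀ * x i))) • w) =
      algebraMap O Ω (θ₀ G₀ ^ (r + 1) * ∏ i, θ₀ (v i)) * coef 0 w := by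
    have e : G₀ * ∏ i, (v i * (G₀ * x i)) = mono x 1 * (G₀ ^ (r + 1) * ∏ i, v i) := by
      simp [Finset.prod_mul_distrib, mono, pow_succ]; ring
    rw [e, mul_smul, coef_mono x coef H.hcoef _ _ _ (show deg (1 : Fin r → ℕ) ≤ D by
      simp [deg]; omega), if_pos le_rfl, tsub_self]
    have hb := coef_eq_zero x coef H.hcoef (j := 1) (m := _)
      (by rw [pow_one]; exact H.hw (G₀ ^ (r + 1) * ∏ i, v i)) 0 (by simp [deg]) (by simp [deg])
    rw [sub_smul, map_sub, sub_eq_zero] at hb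
    rw [hb, algebraMap_smul, map_smul, Algebra.smul_def, map_mul, map_pow, map_prod]
  have hdvdT : γ ∣ algebraMap O Ω (θ₀ G₀ ^ (r + 1) * ∏ i, θ₀ (v i)) := by
    rw [← H.hw0.dvd_mul_right, ← hlead, hsum, Finset.prod_sub, Finset.mul_sum, Finset.sum_smul,
      map_sum]
    refine Finset.dvd_sum fun t _ => ?_
    set o' : Fin r → Bool := fun i => decide (i ∉ t)
    have e : (∏ i ∈ Finset.univ \ t, f true i) * ∏ i ∈ t, f false i = ∏ i, f (o' i) i := by
      rw [← Finset.prod_sdiff (Finset.subset_univ t)]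
      congr 1 <;> refine Finset.prod_congr rfl fun i hi => ?_ <;> simp_all [o']
    rw [show G₀ * ((-1) ^ t.card * (∏ i ∈ Finset.univ \ t, f true i) * ∏ i ∈ t, f false i) =
        algebraMap O B ((-1) ^ t.card) * (G₀ * ∏ i, f (o' i) i) by
      rw [← e, map_pow, map_neg, map_one]; ring, mul_smul, algebraMap_smul, map_smul,
      Algebra.smul_def]
    refine dvd_mul_of_dvd_right ?_ _
    rw [mul_smul]
    exact hdvd (o', toLex 1) ((hmemS _ _).2 (by show ∑ i, (1 : Fin r → ℕ) i = r; simp))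
  obtain ⟨u, hu⟩ := hdvdT
  have hexp : θE G ^ μ - z = ∑ α ∈ expoLE r K, c α * θE (mono ℓ α) := by
    rw [hz, map_sub, hθh, sub_sub_cancel, map_sum]
    exact Finset.sum_congr rfl fun α _ => by rw [map_mul, AlgHom.commutes, Algebra.algebraMap_self,
      RingHom.id_apply]
  rw [hexp, Finset.sum_mul, map_sum]
  refine Finset.sum_eq_zero fun α hα => ?_
  have hk := hcz (deg α) (mem_expoLE.1 hα) α rfl
  have hle := expBound_mono (r := r) (Nat.lt_succ_of_le (mem_expoLE.1 hα))
  set E := ∑ i ∈ Finset.range (deg α + 1), (2 * i + 1) * Fintype.card (Expo r i) with hEdef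
  obtain ⟨F, hF⟩ : ∃ F, expBound r K = E + F := ⟨_, (Nat.add_sub_cancel' hle).symm⟩
  simp only [map_mul, map_pow] at hu ⊢
  rw [hF, hu]
  simp only [pow_add, mul_pow] at hk ⊢
  linear_combination (algebraMap O Ω (θE (mono ℓ α)) * u ^ E *
    (algebraMap O Ω (θ₀ G₀) ^ F * γ ^ F * u ^ F)) * hk

/-- In a discrete valuation ring: a non-divisible product. -/
theorem not_dvd_mul_pow [IsDomain O] [IsDiscreteValuationRing O] {π a c : O} (hπ : Irreducible π)
    {i j k : ℕ} (ha : ¬ π ^ (i + 1) ∣ a) (hc : ¬ π ^ (j + 1) ∣ c) :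
    ¬ π ^ (i + k * j + 1) ∣ a * c ^ k := by
  have ha0 : a ≠ 0 := fun h => ha (h ▸ dvd_zero _)
  have hc0 : c ≠ 0 := fun h => hc (h ▸ dvd_zero _)
  obtain ⟨m, u, rfl⟩ := IsDiscreteValuationRing.eq_unit_mul_pow_irreducible ha0 hπ
  obtain ⟨n, v, rfl⟩ := IsDiscreteValuationRing.eq_unit_mul_pow_irreducible hc0 hπ
  rw [mul_pow, ← pow_mul, show ↑u * π ^ m * ((v : O) ^ k * π ^ (n * k)) =
    ↑(u * v ^ k) * π ^ (m + n * k) by push_cast; ring]
  rw [Units.dvd_mul_left, pow_dvd_pow_iff hπ.ne_zero hπ.not_isUnit]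
  rw [Units.dvd_mul_left, pow_dvd_pow_iff hπ.ne_zero hπ.not_isUnit] at ha hc
  have : k * n ≤ k * j := Nat.mul_le_mul_left _ (by omega)
  rw [mul_comm n k]
  omega

omit [Algebra O Ω] in
/-- Divisibility is total in the quotients of a discrete valuation ring. -/
theorem dvd_total_quotient [IsDomain O] [IsDiscreteValuationRing O] (I : Ideal O) (a b : O ⧸ I) :
    a ∣ b ∨ b ∣ a := by
  obtain ⟨a, rfl⟩ := Ideal.Quotient.mk_surjective a
  obtain ⟨b, rfl⟩ := Ideal.Quotient.mk_surjective b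
  exact (ValuationRing.dvd_total a b).imp (map_dvd _) (map_dvd _)

/-- **The contradiction.** The hypotheses cannot hold at high precision when `θE G` is not divisible
by a high power of `π`. -/
theorem false_of_hyp [IsDomain O] [IsDiscreteValuationRing O] {π : O} (hπ : Irreducible π)
    {μ a b N D : ℕ} (coef : (Fin r → ℕ) → M →ₗ[O] O ⧸ Ideal.span {π ^ N})
    (H : Hyp x ℓ y v G G₀ θ₀ θE coef w μ π D) (hD : r + μ * a ≤ D) (hG : ¬ π ^ (a + 1) ∣ θE G)
    (hc : ¬ π ^ (b + 1) ∣ θ₀ G₀ * (θ₀ G₀ ^ (r + 1) * ∏ i, θ₀ (v i)))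
    (hN : μ * a + expBound r (μ * a) * b < N) : False := by
  have hN0 : N ≠ 0 := by omega
  have : Nontrivial (O ⧸ Ideal.span {π ^ N}) :=
    Ideal.Quotient.nontrivial_iff.2 fun h => hπ.not_isUnit
      ((isUnit_pow_iff hN0).1 (Ideal.span_singleton_eq_top.1 h))
  have : IsLocalRing (O ⧸ Ideal.span {π ^ N}) :=
    IsLocalRing.of_surjective' _ Ideal.Quotient.mk_surjective
  obtain ⟨z, hz, hzero⟩ := dvd_bound (dvd_total_quotient _) H (μ * a) hD
  rw [Ideal.Quotient.algebraMap_eq, Ideal.Quotient.eq_zero_iff_mem, Ideal.mem_span_singleton]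
    at hzero
  have hGμ : ¬ π ^ (μ * a + 1) ∣ θE G ^ μ := by
    have := not_dvd_mul_pow (k := μ) hπ (i := 0) (a := 1)
      (fun h => hπ.not_isUnit (isUnit_of_dvd_one (by simpa using h))) hG
    simpa using this
  exact not_dvd_mul_pow hπ (fun h => hGμ (by simpa using dvd_add h hz)) hc
    ((pow_dvd_pow π (by omega)).trans hzero)

end Fermat.Agent.RT.Two.Core

end
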