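import Mathlib

/-!
# Vanishing of Taylor coefficients from a filtered free module

`B` acts on a module `M` with coefficient functionals `coef a` shifted by the elements `x i`. If an
element `h` kills a vector `L` of exact degree `r`, and the `x i` are combinations of the `ℓ j`
near the point, then the coefficients of `h` in the monomials of the `ℓ j` vanish after
multiplication by powers of the two scalars `s` and `γ`.
-/

set_option autoImplicit false

noncomputable section

namespace Fermat.Agent.RT.Two.Core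

open Finset

variable {O Ω B M : Type*} [CommRing O] [CommRing Ω] [Algebra O Ω] [CommRing B] [Algebra O B]
  [AddCommGroup M] [Module B M] [Module O M] [IsScalarTower O B M] {r : ℕ}

/-- The monomial with exponent `β`. -/
def mono (x : Fin r → B) (β : Fin r → ℕ) : B := ∏ i, x i ^ β i

/-- The degree of an exponent. -/
def deg (β : Fin r → ℕ) : ℕ := ∑ i, β i

theorem deg_add (a b : Fin r → ℕ) : deg (a + b) = deg a + deg b := by
  simp [deg, Finset.sum_add_distrib]

theorem deg_single (j : Fin r) : deg (Pi.single j (1 : ℕ) : Fin r → ℕ) = 1 := by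
  simp [deg]

theorem exists_single_add {β : Fin r → ℕ} {k : ℕ} (h : deg β = k + 1) :
    ∃ j β', β = β' + Pi.single j 1 ∧ deg β' = k := by
  obtain ⟨j, hj⟩ : ∃ j, 0 < β j := by
    by_contra hh
    push Not at hh
    have : deg β = 0 := Finset.sum_eq_zero fun i _ => Nat.le_zero.1 (hh i)
    omega
  have e : β = (β - Pi.single j 1) + Pi.single j 1 := by
    funext i
    rcases eq_or_ne i j with rfl | hne
    · simp [Nat.sub_add_cancel hj]
    · simp [hne]
  refine ⟨j, _, e, ?_⟩
  have := congrArg deg e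
  rw [deg_add, deg_single] at this
  omega

theorem deg_eq_zero {β : Fin r → ℕ} (h : deg β = 0) : β = 0 := by
  funext i
  exact (Finset.sum_eq_zero_iff.1 h) i (Finset.mem_univ i)

theorem mono_add (x : Fin r → B) (a b : Fin r → ℕ) : mono x (a + b) = mono x a * mono x b := by
  simp [mono, pow_add, Finset.prod_mul_distrib]

theorem mono_single (x : Fin r → B) (j : Fin r) :
    mono x (Pi.single j 1 : Fin r → ℕ) = x j := by
  rw [mono, Finset.prod_eq_single j]
  · simp
  · intro i _ hi; simp [hi]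
  · simp

theorem mono_zero (x : Fin r → B) : mono x (0 : Fin r → ℕ) = 1 := by simp [mono]

theorem mono_mem_pow (x : Fin r → B) (β : Fin r → ℕ) :
    mono x β ∈ Ideal.span (Set.range x) ^ deg β := by
  generalize hk : deg β = k
  induction k generalizing β with
  | zero => rw [pow_zero, Ideal.one_eq_top]; exact Submodule.mem_top
  | succ k ih =>
    obtain ⟨j, β', rfl, hd⟩ := exists_single_add hk
    rw [mono_add, mono_single, pow_succ]
    exact Ideal.mul_mem_mul (ih β' hd) (Ideal.subset_span ⟨j, rfl⟩)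

/-- The elements of `B` mapping `M` into `𝔞 M`. -/
def raiser (I : Ideal B) (M : Type*) [AddCommGroup M] [Module B M] : Ideal B where
  carrier := {b | ∀ m : M, b • m ∈ I • (⊤ : Submodule B M)}
  add_mem' {a b} ha hb m := by rw [add_smul]; exact Submodule.add_mem _ (ha m) (hb m)
  zero_mem' m := by rw [zero_smul]; exact Submodule.zero_mem _
  smul_mem' c b hb m := by rw [smul_eq_mul, mul_smul]; exact Submodule.smul_mem _ c (hb m)

theorem raiser_pow_le (I : Ideal B) (k : ℕ) :
    raiser I M ^ k • (⊤ : Submodule B M) ≤ I ^ k • (⊤ : Submodule B M) := by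
  induction k with
  | zero => simp
  | succ k ih =>
    have h1 : raiser I M • (⊤ : Submodule B M) ≤ I • ⊤ :=
      Submodule.smul_le.2 fun b hb m _ => hb m
    calc raiser I M ^ (k + 1) • (⊤ : Submodule B M)
        = raiser I M ^ k • (raiser I M • (⊤ : Submodule B M)) := by
          rw [← Submodule.mul_smul, ← pow_succ]
      _ ≤ raiser I M ^ k • (I • (⊤ : Submodule B M)) := smul_mono_right _ h1
      _ = I • (raiser I M ^ k • (⊤ : Submodule B M)) := by
          rw [← Submodule.mul_smul, mul_comm, Submodule.mul_smul]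
      _ ≤ I • (I ^ k • (⊤ : Submodule B M)) := smul_mono_right _ ih
      _ = I ^ (k + 1) • (⊤ : Submodule B M) := by rw [← Submodule.mul_smul, ← pow_succ']

theorem smul_mem_pow (I : Ideal B) {b : B} {k j : ℕ} (hb : b ∈ raiser I M ^ k) {m : M}
    (hm : m ∈ I ^ j • (⊤ : Submodule B M)) : b • m ∈ I ^ (j + k) • (⊤ : Submodule B M) := by
  have h2 : b • m ∈ raiser I M ^ k • (I ^ j • (⊤ : Submodule B M)) :=
    Submodule.smul_mem_smul hb hm
  rw [← Submodule.mul_smul, mul_comm, Submodule.mul_smul] at h2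
  rw [pow_add, Submodule.mul_smul]
  exact smul_mono_right _ (raiser_pow_le I k) h2

section Coef

variable (x : Fin r → B) (coef : (Fin r → ℕ) → M →ₗ[O] Ω)
  {Dmax : ℕ} (hcoef : ∀ (a : Fin r → ℕ) (j : Fin r) (m : M), deg a ≤ Dmax →
    coef a (x j • m) = if a j = 0 then 0 else coef (a - Pi.single j 1) m)

include hcoef

omit [Algebra O B] [IsScalarTower O B M] in
theorem coef_eq_zero {j : ℕ} {m : M}
    (hm : m ∈ Ideal.span (Set.range x) ^ j • (⊤ : Submodule B M)) :
    ∀ a : Fin r → ℕ, deg a < j → deg a ≤ Dmax → coef a m = 0 := by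
  induction j generalizing m with
  | zero => intro a ha; omega
  | succ j ih =>
    rw [pow_succ', Submodule.mul_smul] at hm
    refine Submodule.smul_induction_on hm (fun b hb n hn => ?_) fun m₁ m₂ h1 h2 a ha hD => by
      rw [map_add, h1 a ha hD, h2 a ha hD, add_zero]
    induction hb using Submodule.span_induction generalizing n with
    | mem b hb =>
      obtain ⟨i, rfl⟩ := hb
      intro a ha hD
      rw [hcoef a i n hD]
      split_ifs with h0
      · rfl
      · have e : a = (a - Pi.single i 1) + Pi.single i 1 := by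
          funext l
          rcases eq_or_ne l i with rfl | hne
          · simp [Nat.sub_add_cancel (Nat.pos_of_ne_zero h0)]
          · simp [hne]
        have := congrArg deg e
        rw [deg_add, deg_single] at this
        exact ih hn _ (by omega) (by omega)
    | zero => intro a _ _; rw [zero_smul, map_zero]
    | add b₁ b₂ _ _ h1 h2 =>
      intro a ha hD
      rw [add_smul, map_add, h1 n hn a ha hD, h2 n hn a ha hD, add_zero]
    | smul c b _ h =>
      intro a ha hD
      rw [smul_eq_mul, mul_comm, mul_smul]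
      exact h (c • n) (Submodule.smul_mem _ c hn) a ha hD

omit [Algebra O B] [IsScalarTower O B M] in
open Classical in
theorem coef_mono (β : Fin r → ℕ) (a : Fin r → ℕ) (m : M) (hD : deg a ≤ Dmax) :
    coef a (mono x β • m) = if β ≤ a then coef (a - β) m else 0 := by
  generalize hk : deg β = k
  induction k generalizing β a with
  | zero =>
    rw [deg_eq_zero hk, mono_zero, one_smul,
      if_pos (show (0 : Fin r → ℕ) ≤ a from fun i => Nat.zero_le _)]
    simp
  | succ k ih =>
    obtain ⟨j, β', rfl, hd⟩ := exists_single_add hk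
    rw [mono_add, mono_single, mul_comm, mul_smul, hcoef a j _ hD]
    by_cases h0 : a j = 0
    · rw [if_pos h0, if_neg]
      intro hle
      have := hle j
      simp [h0] at this
    rw [if_neg h0, ih β' _ ((Finset.sum_le_sum fun i _ => by simp).trans hD) hd]
    by_cases hle : β' ≤ a - Pi.single j 1
    · rw [if_pos hle, if_pos]
      · congr 2
        funext l
        simp only [Pi.sub_apply, Pi.add_apply]
        omega
      · intro l
        have := hle l
        rcases eq_or_ne l j with rfl | hne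
        · simp at this ⊢; omega
        · simp [hne] at this ⊢; omega
    · rw [if_neg hle, if_neg]
      intro hle'
      refine hle fun l => ?_
      have := hle' l
      rcases eq_or_ne l j with rfl | hne
      · simp at this ⊢; omega
      · simp [hne] at this ⊢; omega

omit [Algebra O B] [IsScalarTower O B M] in
theorem coef_smul_eq {j : ℕ} {b b' : B} (hb : b - b' ∈ raiser (Ideal.span (Set.range x)) M ^ 1)
    {m : M} (hm : m ∈ Ideal.span (Set.range x) ^ j • (⊤ : Submodule B M)) {a : Fin r → ℕ}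
    (ha : deg a ≤ j) (hD : deg a ≤ Dmax) : coef a (b • m) = coef a (b' • m) := by
  have := coef_eq_zero x coef hcoef (smul_mem_pow _ hb hm) a (by omega) hD
  rw [sub_smul, map_sub, sub_eq_zero] at this
  exact this

end Coef

/-- The exponents of degree `k`. -/
def Expo (r k : ℕ) : Type := {β : Fin r → ℕ // deg β = k}

instance (r k : ℕ) : Fintype (Expo r k) :=
  Fintype.subtype (Finset.piAntidiag Finset.univ k) fun β => by
    simp [Finset.mem_piAntidiag, deg]

noncomputable instance (r k : ℕ) : LinearOrder (Expo r k) :=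
  LinearOrder.lift' (fun β => toLex β.1) fun _ _ h => Subtype.ext (toLex.injective h)

variable {ι : Type*}

/-- The span on which the monomials in `x` are compared with those in `ℓ`. -/
def compSpan (x : Fin r → B) (ℓ : Fin r → B) (G₀ : B) (J : Ideal B) (k : ℕ) : Submodule O B :=
  Submodule.span O (Set.range fun α : Expo r k => G₀ ^ k * mono (fun j => G₀ * ℓ j) α.1) ⊔
    (raiser (Ideal.span (Set.range x)) M ^ (k + 1) ⊔ J).restrictScalars O

section Compare

variable {x ℓ : Fin r → B} {G₀ : B} {J : Ideal B}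
  (hP : ∀ j, G₀ * ℓ j ∈ raiser (Ideal.span (Set.range x)) M)
  (hgen : ∀ b : B, ∃ c : O, b - algebraMap O B c ∈ Ideal.span (Set.range ℓ) ⊔ J)
  (hx : ∀ i, x i ∈ Ideal.span (Set.range ℓ) ⊔ J)

include hP

theorem mono_P_mem (α : Fin r → ℕ) :
    mono (fun j => G₀ * ℓ j) α ∈ raiser (Ideal.span (Set.range x)) M ^ deg α :=
  Ideal.pow_right_mono (Ideal.span_le.2 (by rintro _ ⟨j, rfl⟩; exact hP j)) _ (mono_mem_pow _ α)

theorem span_ell_le : Ideal.span {G₀} * Ideal.span (Set.range ℓ) ≤
    raiser (Ideal.span (Set.range x)) M := by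
  rw [Ideal.span_mul_span', Ideal.span_le]
  rintro _ ⟨a, ha, b, ⟨j, rfl⟩, rfl⟩
  rw [Set.mem_singleton_iff.1 ha]
  exact hP j

include hgen hx

omit [Module O M] [IsScalarTower O B M] in
theorem exists_linear (i : Fin r) :
    ∃ c : Fin r → O, G₀ ^ 2 * x i - ∑ j, algebraMap O B (c j) * (G₀ * (G₀ * ℓ j)) ∈
      raiser (Ideal.span (Set.range x)) M ^ 2 ⊔ J := by
  obtain ⟨u, hu, w, hw, huw⟩ := Submodule.mem_sup.1 (hx i)
  obtain ⟨b, hb⟩ := (Submodule.mem_span_range_iff_exists_fun B).1 hu
  choose c hc using fun j => hgen (b j)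
  refine ⟨c, ?_⟩
  have e : G₀ ^ 2 * x i - ∑ j, algebraMap O B (c j) * (G₀ * (G₀ * ℓ j)) =
      ∑ j, (b j - algebraMap O B (c j)) * (G₀ * (G₀ * ℓ j)) + G₀ ^ 2 * w := by
    rw [← huw, ← hb]
    simp only [sub_mul, Finset.sum_sub_distrib, smul_eq_mul, mul_add, Finset.mul_sum]
    rw [Finset.sum_congr rfl fun j _ => show b j * (G₀ * (G₀ * ℓ j)) = G₀ ^ 2 * (b j * ℓ j) by ring]
    abel
  rw [e]
  refine Submodule.add_mem _ (Submodule.sum_mem _ fun j _ => ?_)
    (Ideal.mem_sup_right (Ideal.mul_mem_left _ _ hw))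
  obtain ⟨p, hp, q, hq, hpq⟩ := Submodule.mem_sup.1 (hc j)
  rw [← hpq, add_mul]
  refine Submodule.add_mem _ (Ideal.mem_sup_left ?_) (Ideal.mem_sup_right (Ideal.mul_mem_right _ _ hq))
  rw [pow_two, show p * (G₀ * (G₀ * ℓ j)) = (G₀ * p) * (G₀ * ℓ j) by ring]
  exact Ideal.mul_mem_mul
    (span_ell_le hP (Ideal.mul_mem_mul (Ideal.mem_span_singleton_self G₀) hp)) (hP j)

omit [Module O M] [IsScalarTower O B M] in
theorem mono_mem_compSpan (β : Fin r → ℕ) :
    G₀ ^ (2 * deg β) * mono x β ∈ compSpan (O := O) (M := M) x ℓ G₀ J (deg β) := by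
  generalize hk : deg β = k
  induction k generalizing β with
  | zero =>
    rw [deg_eq_zero hk, mono_zero]
    refine Submodule.mem_sup_left (Submodule.subset_span ⟨(⟨0, by simp [deg]⟩ : Expo r 0), ?_⟩)
    simp [mono_zero]
  | succ k ih =>
    obtain ⟨i, β', rfl, hd⟩ := exists_single_add hk
    obtain ⟨c, hc⟩ := exists_linear hP hgen hx i
    set R := raiser (Ideal.span (Set.range x)) M
    set lin := ∑ j, algebraMap O B (c j) * (G₀ * (G₀ * ℓ j)) with hlin
    rw [mono_add, mono_single, show G₀ ^ (2 * (k + 1)) * (mono x β' * x i) =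
      (G₀ ^ (2 * k) * mono x β') * lin + (G₀ ^ (2 * k) * mono x β') * (G₀ ^ 2 * x i - lin) by ring]
    obtain ⟨u, hu, w, hw, huw⟩ := Submodule.mem_sup.1 (ih β' hd)
    have hu' : u ∈ R ^ k := by
      refine Submodule.span_le (p := (R ^ k).restrictScalars O) |>.2 ?_ hu
      rintro _ ⟨α, rfl⟩
      refine Ideal.mul_mem_left _ _ ?_
      have := mono_P_mem hP (M := M) α.1
      rwa [α.2] at this
    have hlinR : lin ∈ R :=
      Submodule.sum_mem _ fun j _ => Ideal.mul_mem_left _ _ (Ideal.mul_mem_left _ _ (hP j))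
    have hw' : w * lin ∈ R ^ (k + 1 + 1) ⊔ J := by
      obtain ⟨p, hp, q, hq, hpq⟩ := Submodule.mem_sup.1 (show w ∈ R ^ (k + 1) ⊔ J from hw)
      rw [← hpq, add_mul, pow_succ]
      exact Submodule.add_mem _ (Ideal.mem_sup_left (Ideal.mul_mem_mul hp hlinR))
        (Ideal.mem_sup_right (Ideal.mul_mem_right _ _ hq))
    refine Submodule.add_mem _ ?_ (Submodule.mem_sup_right ?_)
    · rw [← huw, add_mul]
      refine Submodule.add_mem _ (Submodule.mem_sup_left ?_) (Submodule.mem_sup_right hw')
      clear hw' huw hu'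
      induction hu using Submodule.span_induction with
      | mem z hz =>
        obtain ⟨α, rfl⟩ := hz
        rw [hlin, Finset.mul_sum]
        refine Submodule.sum_mem _ fun j _ => ?_
        have he : G₀ ^ k * mono (fun j => G₀ * ℓ j) α.1 * (algebraMap O B (c j) * (G₀ * (G₀ * ℓ j))) =
            c j • (G₀ ^ (k + 1) * mono (fun j => G₀ * ℓ j) (α.1 + Pi.single j 1)) := by
          rw [Algebra.smul_def, mono_add, mono_single]; ring
        rw [he]
        exact Submodule.smul_mem _ _ (Submodule.subset_span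
          ⟨⟨α.1 + Pi.single j 1, by rw [deg_add, deg_single, α.2]⟩, rfl⟩)
      | zero => rw [zero_mul]; exact zero_mem _
      | add a b _ _ ha hb => rw [add_mul]; exact add_mem ha hb
      | smul a b _ hb => rw [smul_mul_assoc]; exact Submodule.smul_mem _ a hb
    · show _ ∈ R ^ (k + 1 + 1) ⊔ J
      obtain ⟨p, hp, q, hq, hpq⟩ := Submodule.mem_sup.1 hc
      rw [← hpq, mul_add]
      refine Submodule.add_mem _ ?_ (Ideal.mem_sup_right (Ideal.mul_mem_left _ _ hq))
      obtain ⟨p', hp', q', hq', hpq'⟩ :=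
        Submodule.mem_sup.1 (show w ∈ R ^ (k + 1) ⊔ J from hw)
      rw [← huw, add_mul, ← hpq', add_mul]
      refine Submodule.add_mem _ ?_ (Submodule.add_mem _ ?_
        (Ideal.mem_sup_right (Ideal.mul_mem_right _ _ hq')))
      · refine Ideal.mem_sup_left ?_
        rw [show k + 1 + 1 = k + 2 by omega, pow_add]
        exact Ideal.mul_mem_mul hu' hp
      · refine Ideal.mem_sup_left ?_
        refine Ideal.pow_le_pow_right (show k + 1 + 1 ≤ k + 1 + 2 by omega) ?_
        rw [pow_add]
        exact Ideal.mul_mem_mul hp' hp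

end Compare

section Main

variable (x ℓ : Fin r → B) (G₀ : B) (J : Ideal B) (s : O) (coef : (Fin r → ℕ) → M →ₗ[O] Ω)
  {Dmax : ℕ} (hcoef : ∀ (a : Fin r → ℕ) (j : Fin r) (m : M), deg a ≤ Dmax →
    coef a (x j • m) = if a j = 0 then 0 else coef (a - Pi.single j 1) m)
  (hP : ∀ j, G₀ * ℓ j ∈ raiser (Ideal.span (Set.range x)) M)
  (hG₀ : G₀ * (G₀ - algebraMap O B s) ∈ raiser (Ideal.span (Set.range x)) M)
  (hgen : ∀ b : B, ∃ c : O, b - algebraMap O B c ∈ Ideal.span (Set.range ℓ) ⊔ J)
  (hx : ∀ i, x i ∈ Ideal.span (Set.range ℓ) ⊔ J)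
  {d : ℕ} {L' : M} (hL' : L' ∈ Ideal.span (Set.range x) ^ d • (⊤ : Submodule B M))
  (hJ : ∀ b ∈ J, b • L' = 0)
  {a₀ : Fin r → ℕ} (ha₀ : deg a₀ = d)
  (hγ : ∀ a, deg a = d → ∃ u : Ω, coef a (G₀ • L') = coef a₀ (G₀ • L') * u ∧
    (toLex a < toLex a₀ → ¬ IsUnit u))

include hG₀

omit [Module O M] [IsScalarTower O B M] in
theorem G₀_pow (k : ℕ) :
    G₀ ^ k * G₀ - algebraMap O B (s ^ k) * G₀ ∈ raiser (Ideal.span (Set.range x)) M := by
  induction k with
  | zero => simp
  | succ k ih =>
    have e : G₀ ^ (k + 1) * G₀ - algebraMap O B (s ^ (k + 1)) * G₀ =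
        G₀ * (G₀ ^ k * G₀ - algebraMap O B (s ^ k) * G₀) +
          algebraMap O B (s ^ k) * (G₀ * (G₀ - algebraMap O B s)) := by
      rw [pow_succ, pow_succ s, map_mul]; ring
    rw [e]
    exact Submodule.add_mem _ (Ideal.mul_mem_left _ _ ih) (Ideal.mul_mem_left _ _ hG₀)

include hcoef hP hgen hx hL' hJ in
theorem exists_rows {k : ℕ} (hk : d + k ≤ Dmax) (β : Expo r k) :
    ∃ e : Expo r k → O, ∀ a, deg a = d + k →
      algebraMap O Ω (s ^ (2 * k)) * coef a (mono x β.1 • (G₀ • L')) =
        ∑ α, algebraMap O Ω (e α * s ^ k) *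
          coef a (mono (fun j => G₀ * ℓ j) α.1 • (G₀ • L')) := by
  have h := mono_mem_compSpan (O := O) (M := M) (x := x) hP hgen hx β.1
  rw [β.2] at h
  obtain ⟨u, hu, w, hw, huw⟩ := Submodule.mem_sup.1 h
  obtain ⟨e, he⟩ := (Submodule.mem_span_range_iff_exists_fun O).1 hu
  refine ⟨e, fun a ha => ?_⟩
  have hβ : mono x β.1 • L' ∈ Ideal.span (Set.range x) ^ (d + k) • (⊤ : Submodule B M) := by
    rw [add_comm, pow_add, Submodule.mul_smul]
    refine Submodule.smul_mem_smul ?_ hL'
    have hb := mono_mem_pow x β.1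
    rwa [β.2] at hb
  have h1 : coef a (((G₀ ^ (2 * k) * G₀) * mono x β.1) • L') =
      algebraMap O Ω (s ^ (2 * k)) * coef a (mono x β.1 • (G₀ • L')) := by
    rw [mul_smul, coef_smul_eq x coef hcoef (b' := algebraMap O B (s ^ (2 * k)) * G₀)
      (by rw [pow_one]; exact G₀_pow x G₀ s hG₀ _) hβ ha.le (ha.le.trans hk), ← smul_smul,
      algebraMap_smul, map_smul, Algebra.smul_def, smul_comm]
  have h2 : ∀ α : Expo r k, coef a (((G₀ ^ k * G₀) * mono (fun j => G₀ * ℓ j) α.1) • L') =
      algebraMap O Ω (s ^ k) * coef a (mono (fun j => G₀ * ℓ j) α.1 • (G₀ • L')) := by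
    intro α
    have hm : mono (fun j => G₀ * ℓ j) α.1 • L' ∈
        Ideal.span (Set.range x) ^ (d + k) • (⊤ : Submodule B M) :=
      smul_mem_pow _ (by have hb := mono_P_mem hP α.1; rwa [α.2] at hb) hL'
    rw [mul_smul, coef_smul_eq x coef hcoef (b' := algebraMap O B (s ^ k) * G₀)
      (by rw [pow_one]; exact G₀_pow x G₀ s hG₀ _) hm ha.le (ha.le.trans hk), ← smul_smul,
      algebraMap_smul, map_smul, Algebra.smul_def, smul_comm]
  rw [← h1, show (G₀ ^ (2 * k) * G₀) * mono x β.1 = G₀ * (G₀ ^ (2 * k) * mono x β.1) by ring,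
    ← huw, mul_add, add_smul, map_add]
  have h3 : coef a ((G₀ * w) • L') = 0 := by
    obtain ⟨p, hp, q, hq, hpq⟩ := Submodule.mem_sup.1
      (show w ∈ raiser (Ideal.span (Set.range x)) M ^ (k + 1) ⊔ J from hw)
    rw [← hpq, mul_add, add_smul, hJ _ (Ideal.mul_mem_left _ _ hq), add_zero]
    exact coef_eq_zero x coef hcoef (smul_mem_pow _ (Ideal.mul_mem_left _ _ hp) hL') a (by omega) (ha.le.trans hk)
  rw [h3, add_zero, ← he, Finset.mul_sum, Finset.sum_smul, map_sum]
  refine Finset.sum_congr rfl fun α _ => ?_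
  rw [mul_smul_comm, smul_assoc, map_smul, Algebra.smul_def, map_mul, mul_assoc,
    show G₀ * (G₀ ^ k * mono (fun j => G₀ * ℓ j) α.1) =
      (G₀ ^ k * G₀) * mono (fun j => G₀ * ℓ j) α.1 by ring, h2]

include hcoef hP hgen hx hL' hJ ha₀ hγ in
theorem coeff_level_zero [IsLocalRing Ω] {k : ℕ} (hk : d + k ≤ Dmax) (c : Expo r k → Ω)
    (hc : ∀ a, deg a = d + k →
      ∑ α, c α * coef a (mono (fun j => G₀ * ℓ j) α.1 • (G₀ • L')) = 0) (α : Expo r k) :
    c α * (algebraMap O Ω (s ^ (2 * k)) * coef a₀ (G₀ • L')) ^ Fintype.card (Expo r k) = 0 := by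
  classical
  set g := coef a₀ (G₀ • L') with hg
  have hdeg : ∀ β' : Expo r k, deg (a₀ + β'.1) = d + k := fun β' => by rw [deg_add, ha₀, β'.2]
  let V : Matrix (Expo r k) (Expo r k) Ω := fun α β' =>
    coef (a₀ + β'.1) (mono (fun j => G₀ * ℓ j) α.1 • (G₀ • L'))
  let X : Matrix (Expo r k) (Expo r k) Ω := fun β β' => coef (a₀ + β'.1) (mono x β.1 • (G₀ • L'))
  choose e he using fun β : Expo r k =>
    exists_rows x ℓ G₀ J s coef hcoef hP hG₀ hgen hx hL' hJ hk β
  let S : Matrix (Expo r k) (Expo r k) Ω := fun β α => algebraMap O Ω (e β α * s ^ k)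
  have hSV : S * V = (algebraMap O Ω (s ^ (2 * k))) • X := by
    ext β β'
    exact (he β (a₀ + β'.1) (hdeg β')).symm
  have hU : ∀ β β' : Expo r k, ∃ u : Ω, X β β' = g * u ∧ (β = β' → u = 1) ∧
      (β' < β → ¬ IsUnit u) := by
    intro β β'
    rcases eq_or_ne β β' with rfl | hne
    · refine ⟨1, ?_, fun _ => rfl, fun h => absurd h (lt_irrefl _)⟩
      show coef _ _ = _
      rw [coef_mono x coef hcoef _ _ _ ((hdeg _).le.trans hk), if_pos le_add_self, add_tsub_cancel_right, mul_one]
    by_cases hle : β.1 ≤ a₀ + β'.1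
    · have hd : deg (a₀ + β'.1 - β.1) = d := by
        have e1 := congrArg deg (tsub_add_cancel_of_le hle)
        rw [deg_add, hdeg, β.2] at e1
        omega
      obtain ⟨u, hu, hu'⟩ := hγ _ hd
      refine ⟨u, ?_, fun h => absurd h hne, fun hlt => hu' ?_⟩
      · show coef _ _ = _
        rw [coef_mono x coef hcoef _ _ _ ((hdeg _).le.trans hk), if_pos hle, hu]
      · obtain ⟨i, hi1, hi2⟩ := (show toLex β'.1 < toLex β.1 from hlt)
        refine ⟨i, fun j hj => ?_, ?_⟩
        · have := hi1 j hj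
          simp only [Pi.toLex_apply, Pi.sub_apply, Pi.add_apply] at this ⊢
          omega
        · have := hle i
          simp only [Pi.toLex_apply, Pi.sub_apply, Pi.add_apply] at hi2 this ⊢
          omega
    · refine ⟨0, ?_, fun h => absurd h hne, fun _ => not_isUnit_zero⟩
      show coef _ _ = _
      rw [coef_mono x coef hcoef _ _ _ ((hdeg _).le.trans hk), if_neg hle, mul_zero]
  choose U hX hU1 hU2 using hU
  have hXU : X = g • Matrix.of U := by ext β β'; exact hX β β'
  have hdet : IsUnit (Matrix.of U).det := by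
    by_contra hn
    set π := Ideal.Quotient.mk (IsLocalRing.maximalIdeal Ω)
    have h0 : π (Matrix.of U).det = 0 :=
      Ideal.Quotient.eq_zero_iff_mem.2 ((IsLocalRing.mem_maximalIdeal _).2 hn)
    have htri : ((Matrix.of U).map π).IsUpperTriangular := fun β β' h =>
      Ideal.Quotient.eq_zero_iff_mem.2 ((IsLocalRing.mem_maximalIdeal _).2 (hU2 β β' h))
    rw [RingHom.map_det, show π.mapMatrix (Matrix.of U) = (Matrix.of U).map π from rfl,
      Matrix.det_of_isUpperTriangular htri] at h0
    simp [hU1] at h0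
  have hdets : S.det * V.det =
      (algebraMap O Ω (s ^ (2 * k)) * g) ^ Fintype.card (Expo r k) * (Matrix.of U).det := by
    rw [← Matrix.det_mul, hSV, hXU, smul_smul, Matrix.det_smul]
  have hcV : Matrix.vecMul c V = 0 := funext fun β' => hc _ (hdeg β')
  have hcdet : V.det • c = 0 := by
    have := congrArg (fun w => Matrix.vecMul w V.adjugate) hcV
    simpa [Matrix.vecMul_vecMul, Matrix.mul_adjugate, Matrix.vecMul_smul] using this
  refine (hdet.mul_left_eq_zero).1 ?_
  rw [mul_assoc, ← hdets, ← mul_assoc, mul_comm (c α) S.det, mul_assoc, mul_comm (c α),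
    show V.det * c α = 0 from congrFun hcdet α, mul_zero]

omit hG₀ in
/-- The exponent needed up to degree `k`. -/
theorem expBound_mono {j k : ℕ} (h : j < k) :
    (∑ i ∈ Finset.range (j + 1), (2 * i + 1) * Fintype.card (Expo r i)) ≤
      ∑ i ∈ Finset.range k, (2 * i + 1) * Fintype.card (Expo r i) :=
  Finset.sum_le_sum_of_subset (Finset.range_subset_range.2 h)

include hcoef hP hgen hx hL' hJ ha₀ hγ in
/-- **Taylor coefficients vanish.** -/
theorem coeff_zero [IsLocalRing Ω] {K : ℕ} (hDK : d + K ≤ Dmax) {h : B} (hh : h • L' = 0)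
    (c : (Fin r → ℕ) → O) (D : Finset (Fin r → ℕ)) (hD : ∀ α, deg α ≤ K → α ∈ D)
    (hexp : h - ∑ α ∈ D, algebraMap O B (c α) * mono ℓ α ∈
      Ideal.span (Set.range ℓ) ^ (K + 1) ⊔ J) :
    ∀ k, k ≤ K → ∀ α, deg α = k →
      algebraMap O Ω (c α) * (algebraMap O Ω s * coef a₀ (G₀ • L')) ^
        (∑ i ∈ Finset.range (k + 1), (2 * i + 1) * Fintype.card (Expo r i)) = 0 := by
  intro k
  induction k using Nat.strong_induction_on with
  | _ k ih =>
    intro hk
    set E₀ := ∑ i ∈ Finset.range k, (2 * i + 1) * Fintype.card (Expo r i) with hE₀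
    set Z := (algebraMap O Ω s * coef a₀ (G₀ • L')) ^ E₀ with hZdef
    have hlow : ∀ α, deg α < k → algebraMap O Ω (c α) * Z = 0 := by
      intro α hα
      rw [hZdef, ← Nat.add_sub_cancel' ((expBound_mono (r := r) hα).trans_eq hE₀.symm), pow_add, ← mul_assoc,
        ih _ hα (hα.le.trans hk) α rfl, zero_mul]
    set R := raiser (Ideal.span (Set.range x)) M
    have hsum : ∀ a, deg a = d + k → ∑ α : Expo r k, (algebraMap O Ω (c α.1) * Z) *
        coef a (mono (fun j => G₀ * ℓ j) α.1 • (G₀ • L')) = 0 := by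
      intro a ha
      obtain ⟨p, hp, q, hq, hpq⟩ := Submodule.mem_sup.1 hexp
      have hhigh : ∀ z : B, z ∈ Ideal.span (Set.range ℓ) ^ (k + 1) →
          coef a ((G₀ ^ (k + 1) * z) • L') = 0 := by
        intro z hz
        refine coef_eq_zero x coef hcoef (smul_mem_pow _ (k := k + 1) ?_ hL') a (by omega) (by omega)
        refine Ideal.pow_right_mono (span_ell_le hP) (k + 1) ?_
        rw [mul_pow]
        exact Ideal.mul_mem_mul (Ideal.pow_mem_pow (Ideal.mem_span_singleton_self G₀) _) hz
      have hT : ∀ α ∈ D, Z * coef a ((G₀ ^ (k + 1) * (algebraMap O B (c α) * mono ℓ α)) • L') =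
          if deg α = k then (algebraMap O Ω (c α) * Z) *
            coef a (mono (fun j => G₀ * ℓ j) α • (G₀ • L')) else 0 := by
        intro α _
        rw [show G₀ ^ (k + 1) * (algebraMap O B (c α) * mono ℓ α) =
            algebraMap O B (c α) * (G₀ ^ (k + 1) * mono ℓ α) by ring, mul_smul, algebraMap_smul,
          map_smul, Algebra.smul_def]
        rcases lt_trichotomy (deg α) k with hlt | heq | hgt
        · rw [if_neg hlt.ne, ← mul_assoc, mul_comm Z, hlow α hlt, zero_mul]
        · rw [if_pos heq, smul_smul, mul_comm (mono (fun j => G₀ * ℓ j) α) G₀,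
            show mono (fun j => G₀ * ℓ j) α = G₀ ^ k * mono ℓ α by
              rw [← heq]
              simp [mono, deg, mul_pow, Finset.prod_mul_distrib, Finset.prod_pow_eq_pow_sum],
            pow_succ', mul_assoc]
          ring
        · rw [if_neg hgt.ne', hhigh _ (Ideal.pow_le_pow_right hgt (mono_mem_pow ℓ α)), mul_zero,
            mul_zero]
      have hmain : Z * coef a ((G₀ ^ (k + 1) * h) • L') = 0 := by
        rw [mul_smul, hh, smul_zero, map_zero, mul_zero]
      rw [show h = (∑ α ∈ D, algebraMap O B (c α) * mono ℓ α) + (p + q) by rw [hpq]; ring,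
        mul_add, mul_add, add_smul, add_smul, map_add, map_add,
        hhigh p (Ideal.pow_le_pow_right (by omega) hp), hJ _ (Ideal.mul_mem_left _ _ hq), map_zero,
        add_zero, add_zero, Finset.mul_sum, Finset.sum_smul, map_sum, Finset.mul_sum,
        Finset.sum_congr rfl hT, ← Finset.sum_filter] at hmain
      rw [← hmain]
      refine Finset.sum_bij' (fun α _ => α.1) (fun α hα => ⟨α, (Finset.mem_filter.1 hα).2⟩)
        (fun α _ => Finset.mem_filter.2 ⟨hD _ (α.2.le.trans hk), α.2⟩)
        (fun _ _ => Finset.mem_univ _) (fun _ _ => rfl) (fun _ _ => rfl) (fun _ _ => rfl)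
    intro α hα
    rw [Finset.sum_range_succ]
    have h' := coeff_level_zero x ℓ G₀ J s coef hcoef hP hG₀ hgen hx hL' hJ ha₀ hγ (by omega)
      (fun α : Expo r k => algebraMap O Ω (c α.1) * Z) hsum ⟨α, hα⟩
    calc algebraMap O Ω (c α) * (algebraMap O Ω s * coef a₀ (G₀ • L')) ^
          (E₀ + (2 * k + 1) * Fintype.card (Expo r k))
        = (algebraMap O Ω (c α) * Z *
            (algebraMap O Ω (s ^ (2 * k)) * coef a₀ (G₀ • L')) ^ Fintype.card (Expo r k)) *
          ((algebraMap O Ω s) * (coef a₀ (G₀ • L')) ^ (2 * k)) ^ Fintype.card (Expo r k) := by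
          rw [hZdef, map_pow, pow_add, pow_mul]
          simp only [mul_pow]
          ring
      _ = 0 := by rw [h', zero_mul]

end Main

end Fermat.Agent.RT.Two.Core

end
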